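/-
Programme S12, brick 757 TORIC part 9a (M1) (helper57): the INTEGER MODEL BY `p`-POWER SCALING.

`Qb = AlgebraicClosure ℚ`, `p` a prime.
* `exists_pow_mul_eq_int_rat` : a rational number which is `ℓ`-integral for every prime `ℓ ≠ p` becomes an
  integer after multiplication by a power of `p`;
* `exists_pow_mul_eq_int` : `x : Qb` fixed by `Gal(Qb/ℚ)` and lying, for every prime `ℓ ≠ p`, in SOME
  valuation subring over `ℓ`: `∃ k n, p ^ k * x = n` (`n : ℤ`), and all larger exponents work too;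
* `IsScaledModel W' V' u` : `W' : WeierstrassCurve ℤ` has `(W'.aᵢ : Qb) = u ^ i * V'.aᵢ` (the shape of
  `Toric44.nontoric_model`), with `Δ`, `c₄`, `b₂ …` consequences, `Δ ≠ 0`, and for `A` over `ℓ` with `u` an
  `A`-unit: `ℓ ∣ W'.Δ ↔ v(V'.Δ) < 1`, `ℓ ∣ W'.c₄ ↔ v(V'.c₄) < 1`;
* `exists_scaledModel` : `V' : WeierstrassCurve Qb` with Galois-fixed coefficients, integral at every
  valuation subring over every prime `ℓ ≠ p` ⇒ `∃ k W', IsScaledModel W' V' (p ^ k)`.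
Inputs: `S13/AtPSuper.exists_rat_of_fixed'`, `S13/GalRat` (valuation of rationals), `S05/Inertia`,
`Lib/FrobeniusExists.exists_valuationSubring_liesOverPrime`.
-/
import Mathlib
import Fermat.Agent.S13.AtPSuper
import Fermat.Agent.S13.GalRat
import Fermat.Agent.Lib.FrobeniusExists

set_option autoImplicit false
set_option linter.unusedSectionVars false

open WeierstrassCurve

noncomputable section

namespace Fermat.Agent.S12P.Model57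

local notation "Qb" => AlgebraicClosure ℚ

/-! ### rational numbers with only `p` in the denominator -/

/-- A rational number, `ℓ`-integral at every prime `ℓ ≠ p`, has denominator a power of `p`. -/
theorem den_eq_prime_pow {p : ℕ} (q : ℚ)
    (h : ∀ ℓ : ℕ, ℓ.Prime → ℓ ≠ p → ¬ ℓ ∣ q.den) : ∃ k : ℕ, q.den = p ^ k := by
  refine ⟨q.den.primeFactorsList.length, Nat.eq_prime_pow_of_unique_prime_dvd q.den_ne_zero ?_⟩
  intro d hd hdvd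
  by_contra hne
  exact h d hd hne hdvd

theorem exists_pow_mul_eq_int_rat {p : ℕ} (q : ℚ)
    (h : ∀ ℓ : ℕ, ℓ.Prime → ℓ ≠ p → ¬ ℓ ∣ q.den) : ∃ k : ℕ, ∃ n : ℤ, (p : ℚ) ^ k * q = n := by
  obtain ⟨k, hk⟩ := den_eq_prime_pow q h
  refine ⟨k, q.num, ?_⟩
  have h1 : ((q.den : ℕ) : ℚ) * q = q.num := Rat.den_mul_eq_num q
  rw [hk] at h1
  exact_mod_cast h1

/-! ### the element statement over `Qb` -/

section Elt

variable {p : ℕ}

/-- a rational number in a valuation subring over `ℓ` has denominator prime to `ℓ`. -/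
theorem not_dvd_den_of_mem {ℓ : ℕ} (hℓ : ℓ.Prime) {A : ValuationSubring Qb}
    (hA : A.LiesOverPrime ℓ) {q : ℚ} (hq : algebraMap ℚ Qb q ∈ A) : ¬ ℓ ∣ q.den := by
  intro hdvd
  -- `q.den * q = q.num` in `Qb`, the left side has valuation `< 1`, so `ℓ ∣ q.num`
  have h1 : ((q.den : ℕ) : Qb) * algebraMap ℚ Qb q = ((q.num : ℤ) : Qb) := by
    have h0 : ((q.den : ℕ) : ℚ) * q = q.num := Rat.den_mul_eq_num q
    have := congrArg (algebraMap ℚ Qb) h0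
    rwa [map_mul, map_natCast, map_intCast] at this
  have h2 : A.valuation (((q.den : ℕ) : Qb)) < 1 :=
    (Fermat.Agent.S05.Inertia.valuation_natCast_lt_one_iff hℓ hA q.den).2 hdvd
  have h3 : A.valuation (((q.num : ℤ) : Qb)) < 1 := by
    rw [← h1, map_mul]
    have h4 : A.valuation (algebraMap ℚ Qb q) ≤ 1 := (A.valuation_le_one_iff _).2 hq
    exact Left.mul_lt_one_of_lt_of_le h2 h4
  have h5 : (ℓ : ℤ) ∣ q.num :=
    (Fermat.Agent.S05.Inertia.valuation_intCast_lt_one_iff hℓ hA q.num).1 h3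
  have h6 : ℓ ∣ q.num.natAbs := Int.natCast_dvd.mp h5
  have hcop : Nat.Coprime q.num.natAbs q.den := q.reduced
  have := Nat.dvd_gcd h6 hdvd
  rw [hcop.gcd_eq_one] at this
  exact hℓ.one_lt.ne' (Nat.dvd_one.mp this)

/-- **(M1), element form**: a Galois-fixed element of `Qb`, integral at some valuation subring over
every prime `ℓ ≠ p`, is an integer divided by a power of `p`. -/
theorem exists_pow_mul_eq_int {x : Qb} (hfix : ∀ σ : Qb ≃ₐ[ℚ] Qb, σ x = x)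
    (hint : ∀ ℓ : ℕ, ℓ.Prime → ℓ ≠ p →
      ∃ A : ValuationSubring Qb, A.LiesOverPrime ℓ ∧ x ∈ A) :
    ∃ k : ℕ, ∃ n : ℤ, (p : Qb) ^ k * x = n := by
  obtain ⟨q, rfl⟩ := Fermat.Agent.S13.AtPSuper.exists_rat_of_fixed' x hfix
  have h : ∀ ℓ : ℕ, ℓ.Prime → ℓ ≠ p → ¬ ℓ ∣ q.den := by
    intro ℓ hℓ hne
    obtain ⟨A, hA, hx⟩ := hint ℓ hℓ hne
    exact not_dvd_den_of_mem hℓ hA hx
  obtain ⟨k, n, hkn⟩ := exists_pow_mul_eq_int_rat q h
  refine ⟨k, n, ?_⟩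
  have := congrArg (algebraMap ℚ Qb) hkn
  rwa [map_mul, map_pow, map_natCast, map_intCast] at this

/-- the `∀ A` form of the hypothesis. -/
theorem exists_pow_mul_eq_int' {x : Qb} (hfix : ∀ σ : Qb ≃ₐ[ℚ] Qb, σ x = x)
    (hint : ∀ ℓ : ℕ, ℓ.Prime → ℓ ≠ p →
      ∀ A : ValuationSubring Qb, A.LiesOverPrime ℓ → x ∈ A) :
    ∃ k : ℕ, ∃ n : ℤ, (p : Qb) ^ k * x = n := by
  refine exists_pow_mul_eq_int hfix fun ℓ hℓ hne => ?_
  obtain ⟨A, hA⟩ := Fermat.Agent.Lib.FrobeniusExists.exists_valuationSubring_liesOverPrime ℓ hℓ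
  exact ⟨A, hA, hint ℓ hℓ hne A hA⟩

/-- larger exponents work as well. -/
theorem exists_int_of_le {x : Qb} {k : ℕ} {n : ℤ} (h : (p : Qb) ^ k * x = n) {K : ℕ}
    (hK : k ≤ K) : ∃ N : ℤ, (p : Qb) ^ K * x = N := by
  refine ⟨(p : ℤ) ^ (K - k) * n, ?_⟩
  have : (p : Qb) ^ K = (p : Qb) ^ (K - k) * (p : Qb) ^ k := by
    rw [← pow_add, Nat.sub_add_cancel hK]
  rw [this, mul_assoc, h]
  push_cast
  ring

end Elt

/-! ### scaled integral models -/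

/-- `W'` is the integral model `aᵢ ↦ u ^ i aᵢ` of `V'`. -/
structure IsScaledModel (W' : WeierstrassCurve ℤ) (V' : WeierstrassCurve Qb) (u : Qb) : Prop where
  h₁ : ((W'.a₁ : ℤ) : Qb) = u * V'.a₁
  h₂ : ((W'.a₂ : ℤ) : Qb) = u ^ 2 * V'.a₂
  h₃ : ((W'.a₃ : ℤ) : Qb) = u ^ 3 * V'.a₃
  h₄ : ((W'.a₄ : ℤ) : Qb) = u ^ 4 * V'.a₄
  h₆ : ((W'.a₆ : ℤ) : Qb) = u ^ 6 * V'.a₆

namespace IsScaledModel

variable {W' : WeierstrassCurve ℤ} {V' : WeierstrassCurve Qb} {u : Qb}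

theorem b₂ (h : IsScaledModel W' V' u) : ((W'.b₂ : ℤ) : Qb) = u ^ 2 * V'.b₂ := by
  simp only [WeierstrassCurve.b₂]
  push_cast
  rw [h.h₁, h.h₂]
  ring

theorem b₄ (h : IsScaledModel W' V' u) : ((W'.b₄ : ℤ) : Qb) = u ^ 4 * V'.b₄ := by
  simp only [WeierstrassCurve.b₄]
  push_cast
  rw [h.h₁, h.h₃, h.h₄]
  ring

theorem b₆ (h : IsScaledModel W' V' u) : ((W'.b₆ : ℤ) : Qb) = u ^ 6 * V'.b₆ := by
  simp only [WeierstrassCurve.b₆]
  push_cast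
  rw [h.h₃, h.h₆]
  ring

theorem b₈ (h : IsScaledModel W' V' u) : ((W'.b₈ : ℤ) : Qb) = u ^ 8 * V'.b₈ := by
  simp only [WeierstrassCurve.b₈]
  push_cast
  rw [h.h₁, h.h₂, h.h₃, h.h₄, h.h₆]
  ring

theorem c₄ (h : IsScaledModel W' V' u) : ((W'.c₄ : ℤ) : Qb) = u ^ 4 * V'.c₄ := by
  simp only [WeierstrassCurve.c₄]
  push_cast
  rw [h.b₂, h.b₄]
  ring

theorem c₆ (h : IsScaledModel W' V' u) : ((W'.c₆ : ℤ) : Qb) = u ^ 6 * V'.c₆ := by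
  simp only [WeierstrassCurve.c₆]
  push_cast
  rw [h.b₂, h.b₄, h.b₆]
  ring

theorem Δ (h : IsScaledModel W' V' u) : ((W'.Δ : ℤ) : Qb) = u ^ 12 * V'.Δ := by
  simp only [WeierstrassCurve.Δ]
  push_cast
  rw [h.b₂, h.b₄, h.b₆, h.b₈]
  ring

theorem Δ_ne_zero (h : IsScaledModel W' V' u) (hu : u ≠ 0) (hΔ : V'.Δ ≠ 0) : W'.Δ ≠ 0 := by
  intro h0
  have := h.Δ
  rw [h0, Int.cast_zero] at this
  exact mul_ne_zero (pow_ne_zero 12 hu) hΔ this.symm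

/-- `ℓ ∣ Δ(W')` iff `Δ(V')` has valuation `< 1` (`u` an `A`-unit). -/
theorem dvd_Δ_iff (h : IsScaledModel W' V' u) {ℓ : ℕ} (hℓ : ℓ.Prime) {A : ValuationSubring Qb}
    (hA : A.LiesOverPrime ℓ) (hu : A.valuation u = 1) :
    (ℓ : ℤ) ∣ W'.Δ ↔ A.valuation V'.Δ < 1 := by
  rw [← Fermat.Agent.S05.Inertia.valuation_intCast_lt_one_iff hℓ hA, h.Δ, map_mul, map_pow, hu,
    one_pow, one_mul]

/-- `ℓ ∣ c₄(W')` iff `c₄(V')` has valuation `< 1` (`u` an `A`-unit). -/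
theorem dvd_c₄_iff (h : IsScaledModel W' V' u) {ℓ : ℕ} (hℓ : ℓ.Prime) {A : ValuationSubring Qb}
    (hA : A.LiesOverPrime ℓ) (hu : A.valuation u = 1) :
    (ℓ : ℤ) ∣ W'.c₄ ↔ A.valuation V'.c₄ < 1 := by
  rw [← Fermat.Agent.S05.Inertia.valuation_intCast_lt_one_iff hℓ hA, h.c₄, map_mul, map_pow, hu,
    one_pow, one_mul]

/-- `ℓ ∤ c₄(W')` iff `c₄(V')` is an `A`-unit (`V'.c₄ ∈ A` is automatic: it is `u⁻⁴` times an integer). -/
theorem not_dvd_c₄_iff (h : IsScaledModel W' V' u) {ℓ : ℕ} (hℓ : ℓ.Prime)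
    {A : ValuationSubring Qb} (hA : A.LiesOverPrime ℓ) (hu : A.valuation u = 1) :
    ¬ (ℓ : ℤ) ∣ W'.c₄ ↔ A.valuation V'.c₄ = 1 := by
  rw [h.dvd_c₄_iff hℓ hA hu, not_lt]
  have hle : A.valuation V'.c₄ ≤ 1 := by
    have := Fermat.Agent.S05.Inertia.valuation_intCast_le_one (A := A) W'.c₄
    rwa [h.c₄, map_mul, map_pow, hu, one_pow, one_mul] at this
  exact ⟨fun h1 => le_antisymm hle h1, fun h1 => h1.ge⟩

/-- the base change of `W'` to `Qb` is the `u`-scaled `V'`. -/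
theorem map_eq (h : IsScaledModel W' V' u) :
    W'.map (Int.castRingHom Qb) =
      ⟨u * V'.a₁, u ^ 2 * V'.a₂, u ^ 3 * V'.a₃, u ^ 4 * V'.a₄, u ^ 6 * V'.a₆⟩ := by
  ext
  · exact h.h₁
  · exact h.h₂
  · exact h.h₃
  · exact h.h₄
  · exact h.h₆

end IsScaledModel

/-! ### existence of the scaled model -/

section Exists

variable {p : ℕ}

/-- **(M1), curve form, elementary hypotheses**: each coefficient is an integer over a power of `p`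
⇒ a common scaling `u = p ^ k` gives an integral model. -/
theorem exists_scaledModel_of_pow (V' : WeierstrassCurve Qb)
    (e₁ : ∃ k : ℕ, ∃ n : ℤ, (p : Qb) ^ k * V'.a₁ = n)
    (e₂ : ∃ k : ℕ, ∃ n : ℤ, (p : Qb) ^ k * V'.a₂ = n)
    (e₃ : ∃ k : ℕ, ∃ n : ℤ, (p : Qb) ^ k * V'.a₃ = n)
    (e₄ : ∃ k : ℕ, ∃ n : ℤ, (p : Qb) ^ k * V'.a₄ = n)
    (e₆ : ∃ k : ℕ, ∃ n : ℤ, (p : Qb) ^ k * V'.a₆ = n) :
    ∃ (k : ℕ) (W' : WeierstrassCurve ℤ), IsScaledModel W' V' ((p : Qb) ^ k) := by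
  obtain ⟨k₁, n₁, h₁⟩ := e₁
  obtain ⟨k₂, n₂, h₂⟩ := e₂
  obtain ⟨k₃, n₃, h₃⟩ := e₃
  obtain ⟨k₄, n₄, h₄⟩ := e₄
  obtain ⟨k₆, n₆, h₆⟩ := e₆
  set k := k₁ + k₂ + k₃ + k₄ + k₆ with hk
  obtain ⟨N₁, H₁⟩ := exists_int_of_le h₁ (K := k) (by omega)
  obtain ⟨N₂, H₂⟩ := exists_int_of_le h₂ (K := 2 * k) (by omega)
  obtain ⟨N₃, H₃⟩ := exists_int_of_le h₃ (K := 3 * k) (by omega)
  obtain ⟨N₄, H₄⟩ := exists_int_of_le h₄ (K := 4 * k) (by omega)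
  obtain ⟨N₆, H₆⟩ := exists_int_of_le h₆ (K := 6 * k) (by omega)
  refine ⟨k, ⟨N₁, N₂, N₃, N₄, N₆⟩, ?_, ?_, ?_, ?_, ?_⟩
  · exact H₁.symm
  · rw [← pow_mul, mul_comm k 2]
    exact H₂.symm
  · rw [← pow_mul, mul_comm k 3]
    exact H₃.symm
  · rw [← pow_mul, mul_comm k 4]
    exact H₄.symm
  · rw [← pow_mul, mul_comm k 6]
    exact H₆.symm

/-- **(M1), curve form**: `V'` over `Qb` with Galois-fixed coefficients, integral at every valuation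
subring over every prime `ℓ ≠ p`, has a `p`-power-scaled model over `ℤ`. -/
theorem exists_scaledModel (V' : WeierstrassCurve Qb)
    (hfix : ∀ σ : Qb ≃ₐ[ℚ] Qb, σ V'.a₁ = V'.a₁ ∧ σ V'.a₂ = V'.a₂ ∧ σ V'.a₃ = V'.a₃ ∧
      σ V'.a₄ = V'.a₄ ∧ σ V'.a₆ = V'.a₆)
    (hint : ∀ ℓ : ℕ, ℓ.Prime → ℓ ≠ p → ∀ A : ValuationSubring Qb, A.LiesOverPrime ℓ →
      V'.a₁ ∈ A ∧ V'.a₂ ∈ A ∧ V'.a₃ ∈ A ∧ V'.a₄ ∈ A ∧ V'.a₆ ∈ A) :
    ∃ (k : ℕ) (W' : WeierstrassCurve ℤ), IsScaledModel W' V' ((p : Qb) ^ k) := by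
  refine exists_scaledModel_of_pow V' ?_ ?_ ?_ ?_ ?_
  · exact exists_pow_mul_eq_int' (fun σ => (hfix σ).1) fun ℓ hℓ hne A hA => (hint ℓ hℓ hne A hA).1
  · exact exists_pow_mul_eq_int' (fun σ => (hfix σ).2.1)
      fun ℓ hℓ hne A hA => (hint ℓ hℓ hne A hA).2.1
  · exact exists_pow_mul_eq_int' (fun σ => (hfix σ).2.2.1)
      fun ℓ hℓ hne A hA => (hint ℓ hℓ hne A hA).2.2.1
  · exact exists_pow_mul_eq_int' (fun σ => (hfix σ).2.2.2.1)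
      fun ℓ hℓ hne A hA => (hint ℓ hℓ hne A hA).2.2.2.1
  · exact exists_pow_mul_eq_int' (fun σ => (hfix σ).2.2.2.2)
      fun ℓ hℓ hne A hA => (hint ℓ hℓ hne A hA).2.2.2.2

/-- the form with `V'.map σ = V'`. -/
theorem exists_scaledModel_of_map (V' : WeierstrassCurve Qb)
    (hfix : ∀ σ : Qb ≃ₐ[ℚ] Qb, V'.map ((σ : Qb →ₐ[ℚ] Qb) : Qb →+* Qb) = V')
    (hint : ∀ ℓ : ℕ, ℓ.Prime → ℓ ≠ p → ∀ A : ValuationSubring Qb, A.LiesOverPrime ℓ →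
      V'.a₁ ∈ A ∧ V'.a₂ ∈ A ∧ V'.a₃ ∈ A ∧ V'.a₄ ∈ A ∧ V'.a₆ ∈ A) :
    ∃ (k : ℕ) (W' : WeierstrassCurve ℤ), IsScaledModel W' V' ((p : Qb) ^ k) := by
  refine exists_scaledModel V' (fun σ => ?_) hint
  have h := hfix σ
  refine ⟨?_, ?_, ?_, ?_, ?_⟩
  · exact congrArg WeierstrassCurve.a₁ h
  · exact congrArg WeierstrassCurve.a₂ h
  · exact congrArg WeierstrassCurve.a₃ h
  · exact congrArg WeierstrassCurve.a₄ h
  · exact congrArg WeierstrassCurve.a₆ h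

end Exists

end Fermat.Agent.S12P.Model57
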